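import Mathlib
import Fermat.Agent.LT.CFT.H49.HasseSpec

/-!
# Row LT, tower CFT, brick CFT.12.2 `HasseSetC` (helper637)

OFF-MAIN.  Proof of the frozen Prop `Fermat.Agent.LT.CFT.H49.HasseSetC` of
`LT/CFT/H49/HasseSpec.lean` (helper49@efe3c659a, byte-identical copy, sha256 b28978e9…):
for a Galois extension `L/K` of number fields and `x ∈ Lˣ` there is a finite nonempty set `S` of
rational primes such that `L/K` is unramified outside `S` (`IsUnramOut` of S55 layer G) and `x` is
an `S`-unit (`ordHom S L x = 0`).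

Route (memo `coord/LT-CFT12-helper49.md`, step 0): for `g ≠ 1` choose `θ_g ∈ 𝓞 L` with
`g θ_g ≠ θ_g`, write `x = a / b` with `a, b ∈ 𝓞 L`, and let `S` be the set of prime factors of
`m = 2 · ∏_{g ≠ 1} N(g θ_g - θ_g) · N(a) · N(b)` (absolute norms of the principal ideals).
A prime `w` of `L` containing a nonzero `α` contains the natural number `N(α)`, hence one of its
prime factors; so `w ∤ S` contains none of `g θ_g - θ_g`, `a`, `b`.

Mathlib and main `S55/G/{Defs, Spec}` only.  No `sorry`.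
-/

set_option autoImplicit false
set_option linter.unusedSectionVars false

open IsDedekindDomain NumberField
open Fermat.Agent.S55.G

noncomputable section

namespace Fermat.Agent.LT.CFT.H637

/-- A prime ideal which contains a nonzero natural number contains one of its prime factors. -/
theorem exists_prime_mem_of_natCast_mem637 {R : Type*} [CommRing R] (P : Ideal R)
    [hP : P.IsPrime] :
    ∀ n : ℕ, n ≠ 0 → (n : R) ∈ P → ∃ q : ℕ, q.Prime ∧ q ∣ n ∧ (q : R) ∈ P := by
  intro n
  induction n using Nat.strong_induction_on with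
  | _ n ih =>
    intro hn h
    have hn1 : n ≠ 1 := by
      rintro rfl
      rw [Nat.cast_one] at h
      exact hP.ne_top ((Ideal.eq_top_iff_one P).2 h)
    obtain ⟨q, hq, m, rfl⟩ := Nat.exists_prime_and_dvd hn1
    rw [Nat.cast_mul] at h
    rcases hP.mem_or_mem h with h1 | h1
    · exact ⟨q, hq, dvd_mul_right q m, h1⟩
    · have hm0 : m ≠ 0 := by
        rintro rfl
        exact hn (mul_zero q)
      have hlt : m < q * m := by
        have h2 := hq.two_le
        have h3 := Nat.pos_of_ne_zero hm0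
        nlinarith
      obtain ⟨q', hq', hdvd, hmem⟩ := ih m hlt hm0 h1
      exact ⟨q', hq', dvd_mul_of_dvd_right hdvd q, hmem⟩

/-- The set of prime factors of `m`, as a finite set of bundled primes. -/
def primesOf637 (m : ℕ) : Finset Nat.Primes := Finset.subtype Nat.Prime m.primeFactors

theorem mem_primesOf637 {m : ℕ} (q : Nat.Primes) :
    q ∈ primesOf637 m ↔ (q : ℕ) ∈ m.primeFactors :=
  Finset.mem_subtype

section

variable {L : Type} [Field L] [NumberField L]

/-- A prime of `L` containing a nonzero integer `α` whose norm divides `m ≠ 0` lies above the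
prime factors of `m`. -/
theorem isAbove_of_mem637 (m : ℕ) (hm : m ≠ 0) (w : HeightOneSpectrum (𝓞 L)) (α : 𝓞 L)
    (hα : α ≠ 0) (hαw : α ∈ w.asIdeal)
    (hdvd : Ideal.absNorm (Ideal.span ({α} : Set (𝓞 L))) ∣ m) :
    IsAbove (primesOf637 m) L w := by
  have hn0 : Ideal.absNorm (Ideal.span ({α} : Set (𝓞 L))) ≠ 0 := by
    rw [Ne, Ideal.absNorm_eq_zero_iff, Ideal.span_singleton_eq_bot]
    exact hα
  have hle : Ideal.span ({α} : Set (𝓞 L)) ≤ w.asIdeal :=
    (Ideal.span_singleton_le_iff_mem _).2 hαw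
  have hmem : ((Ideal.absNorm (Ideal.span ({α} : Set (𝓞 L))) : ℕ) : 𝓞 L) ∈ w.asIdeal :=
    hle (Ideal.absNorm_mem _)
  have := w.isPrime
  obtain ⟨q, hq, hqn, hqw⟩ := exists_prime_mem_of_natCast_mem637 w.asIdeal _ hn0 hmem
  exact ⟨⟨q, hq⟩, (mem_primesOf637 _).2 (Nat.mem_primeFactors.2 ⟨hq, hqn.trans hdvd, hm⟩), hqw⟩

end

/-- **CFT.12.2 `HasseSetC`.** -/
theorem hasseSetC637 : H49.HasseSetC := by
  intro K L _ _ _ _ _ _ x
  classical
  have : Fintype (L ≃ₐ[K] L) := Fintype.ofFinite _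
  -- the witnesses `θ_g`
  have hθ : ∀ g : L ≃ₐ[K] L, ∃ θ : 𝓞 L, g ≠ 1 → g • θ - θ ≠ 0 := by
    intro g
    by_cases hg : g = 1
    · exact ⟨0, fun h => (h hg).elim⟩
    · by_contra hcon
      have hfix : ∀ θ : 𝓞 L, g • θ = θ := fun θ => by
        by_contra h
        exact hcon ⟨θ, fun _ => sub_ne_zero.2 h⟩
      apply hg
      ext y
      obtain ⟨a, b, hb, rfl⟩ := IsFractionRing.div_surjective (A := 𝓞 L) y
      have ha' : g • a = a := hfix a
      have hb' : g • b = b := hfix b
      have ha'' : g (algebraMap (𝓞 L) L a) = algebraMap (𝓞 L) L a := by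
        have := congrArg (algebraMap (𝓞 L) L) ha'
        rwa [algebraMap.smul'] at this
      have hb'' : g (algebraMap (𝓞 L) L b) = algebraMap (𝓞 L) L b := by
        have := congrArg (algebraMap (𝓞 L) L) hb'
        rwa [algebraMap.smul'] at this
      rw [map_div₀, ha'', hb'']
      rfl
  choose θ hθ using hθ
  -- numerator and denominator of `x`
  obtain ⟨a, b, hb, hab⟩ := IsFractionRing.div_surjective (A := 𝓞 L) (x : L)
  have hb0 : b ≠ 0 := nonZeroDivisors.ne_zero hb
  have ha0 : a ≠ 0 := by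
    rintro rfl
    rw [map_zero, zero_div] at hab
    exact x.ne_zero hab.symm
  set c : (L ≃ₐ[K] L) → ℕ := fun g =>
    if g = 1 then 1 else Ideal.absNorm (Ideal.span ({g • θ g - θ g} : Set (𝓞 L))) with hc
  have hc0 : ∀ g, c g ≠ 0 := by
    intro g
    by_cases hg : g = 1
    · simp [hc, hg]
    · simp only [hc, hg, if_false]
      rw [Ne, Ideal.absNorm_eq_zero_iff, Ideal.span_singleton_eq_bot]
      exact hθ g hg
  have hna : Ideal.absNorm (Ideal.span ({a} : Set (𝓞 L))) ≠ 0 := by
    rw [Ne, Ideal.absNorm_eq_zero_iff, Ideal.span_singleton_eq_bot]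
    exact ha0
  have hnb : Ideal.absNorm (Ideal.span ({b} : Set (𝓞 L))) ≠ 0 := by
    rw [Ne, Ideal.absNorm_eq_zero_iff, Ideal.span_singleton_eq_bot]
    exact hb0
  set m : ℕ := 2 * (∏ g, c g) * Ideal.absNorm (Ideal.span ({a} : Set (𝓞 L)))
      * Ideal.absNorm (Ideal.span ({b} : Set (𝓞 L))) with hm_def
  have hprod0 : (∏ g, c g) ≠ 0 := Finset.prod_ne_zero_iff.2 fun g _ => hc0 g
  have hm : m ≠ 0 := by
    rw [hm_def]
    exact mul_ne_zero (mul_ne_zero (mul_ne_zero two_ne_zero hprod0) hna) hnb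
  have hcm : ∀ g, c g ∣ m := fun g =>
    Dvd.dvd.mul_right (Dvd.dvd.mul_right
      (Dvd.dvd.mul_left (Finset.dvd_prod_of_mem c (Finset.mem_univ g)) 2) _) _
  have ham : Ideal.absNorm (Ideal.span ({a} : Set (𝓞 L))) ∣ m :=
    Dvd.dvd.mul_right (Dvd.intro_left _ rfl) _
  have hbm : Ideal.absNorm (Ideal.span ({b} : Set (𝓞 L))) ∣ m := Dvd.intro_left _ rfl
  have h2m : 2 ∣ m :=
    Dvd.dvd.mul_right (Dvd.dvd.mul_right (Dvd.intro _ rfl) _) _
  refine ⟨primesOf637 m, ⟨⟨2, Nat.prime_two⟩, ?_⟩, ?_, ?_⟩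
  · exact (mem_primesOf637 _).2 (Nat.mem_primeFactors.2 ⟨Nat.prime_two, h2m, hm⟩)
  · intro w hw g hg y
    by_contra hne
    have hg1 : g ≠ 1 := by
      rintro rfl
      exact hne (one_smul _ y)
    apply hw
    refine isAbove_of_mem637 m hm w (g • θ g - θ g) (hθ g hg1) (hg (θ g)) ?_
    have := hcm g
    simp only [hc, hg1, if_false] at this
    exact this
  · ext w
    rw [ordHom_apply, Finsupp.zero_apply, ordAt_eq_zero_iff]
    have hwa : a ∉ w.1.asIdeal := fun h => w.2 (isAbove_of_mem637 m hm w.1 a ha0 h ham)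
    have hwb : b ∉ w.1.asIdeal := fun h => w.2 (isAbove_of_mem637 m hm w.1 b hb0 h hbm)
    show w.1.valuation L (x : L) = 1
    rw [← hab, map_div₀, HeightOneSpectrum.valuation_of_algebraMap,
      HeightOneSpectrum.valuation_of_algebraMap, HeightOneSpectrum.intValuation_eq_one_iff.2 hwa,
      HeightOneSpectrum.intValuation_eq_one_iff.2 hwb, div_one]

end Fermat.Agent.LT.CFT.H637

end
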